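import Mathlib
import Fermat.Prelude.Def_EllipticCurve_FrobeniusTrace
import Fermat.Prelude.Def_FLTPrelim_Ramification
import Fermat.Prelude.Def_GaloisRep_ComplexConjugation

/-!
# S30 / leaf (c) (helper76): the `p`-adic cyclotomic character of `Gal(ℚ̄/ℚ)`

Finite level (no `ℤ_[p]`; `k` any order prime to the residue characteristic):

* `isFrobeniusAt_rootOfUnity`: a Frobenius element at `ℓ` sends `ζ` to `ζ ^ ℓ` if `ζ ^ k = 1`,
  `k` prime to `ℓ`;
* `inertia_rootOfUnity`: inertia at `q` fixes `ζ` if `ζ ^ k = 1`, `k` prime to `q`;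
* `complexConjugation_rootOfUnity`: complex conjugation inverts the roots of unity.

`cycloChar p : Gal(ℚ̄/ℚ) →* ℤ_[p]ˣ` (Mathlib's `cyclotomicCharacter`), with

* `cycloChar_spec`: `σ ζ = ζ ^ (χ σ mod p ^ n)` on `p ^ n`-th roots of unity;
* `cycloChar_of_isFrobeniusAt`: `χ σ = ℓ` for every Frobenius element `σ` at a prime `ℓ ≠ p`;
* `cycloChar_of_mem_inertia`: `χ σ = 1` on inertia at a prime `q ≠ p`;
* `cycloChar_complexConjugation`: `χ c = -1`;
* `exists_finite_level_cycloChar`: `χ σ ≡ 1 mod p ^ n` for `σ` fixing a finite extension.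

Then, for a ring `S` adically complete for an ideal `I ∋ p`, the ring homomorphism
`padicToComplete : ℤ_[p] →+* S` and the `S`-valued character `cycloCharIn : Gal(ℚ̄/ℚ) →* Sˣ`
with the same four properties (`cycloCharIn_of_isFrobeniusAt`, `cycloCharIn_of_mem_inertia`,
`cycloCharIn_complexConjugation`, `exists_finite_level_cycloCharIn`,
`exists_finite_level_cycloCharIn_mul`).
-/

set_option autoImplicit false

open scoped Padic

namespace Fermat.Agent.S30.H76

local notation "Qbar" => AlgebraicClosure ℚ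
local notation "Γ" => (AlgebraicClosure ℚ ≃ₐ[ℚ] AlgebraicClosure ℚ)

section Char

variable (p : ℕ) [Fact p.Prime]

/-- The `p`-adic cyclotomic character of `Gal(ℚ̄/ℚ)`. -/
noncomputable def cycloChar : Γ →* ℤ_[p]ˣ :=
  (cyclotomicCharacter Qbar p).comp (MulSemiringAction.toRingAut Γ Qbar)

local instance instNeZeroPrime : NeZero p := ⟨(Fact.out : p.Prime).ne_zero⟩

theorem cycloChar_spec (σ : Γ) {n : ℕ} {ζ : Qbar} (hζ : ζ ^ p ^ n = 1) :
    σ ζ = ζ ^ ((cycloChar p σ : ℤ_[p]).toZModPow n).val :=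
  cyclotomicCharacter.spec p (MulSemiringAction.toRingAut Γ Qbar σ) ζ hζ

/-- Finite-level characterisation of the cyclotomic character on a primitive root. -/
theorem toZModPow_cycloChar_eq (σ : Γ) (m : ℤ) (n : ℕ) {ζ : Qbar}
    (hζ : IsPrimitiveRoot ζ (p ^ n)) (h : σ ζ = ζ ^ m) :
    (cycloChar p σ : ℤ_[p]).toZModPow n = (m : ZMod (p ^ n)) := by
  have h1 := cycloChar_spec p σ hζ.pow_eq_one
  rw [h] at h1
  have hζ0 : ζ ≠ 0 := hζ.ne_zero (pow_ne_zero n (Fact.out : p.Prime).ne_zero)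
  have h2 : ζ ^ ((((cycloChar p σ : ℤ_[p]).toZModPow n).val : ℤ) - m) = 1 := by
    rw [zpow_sub₀ hζ0, zpow_natCast, ← h1, div_self (zpow_ne_zero m hζ0)]
  have h3 := (hζ.zpow_eq_one_iff_dvd _).mp h2
  have h4 : ((((cycloChar p σ : ℤ_[p]).toZModPow n).val : ℤ) : ZMod (p ^ n)) =
      (m : ZMod (p ^ n)) := by
    rw [← sub_eq_zero, ← Int.cast_sub]
    exact (ZMod.intCast_zmod_eq_zero_iff_dvd _ _).mpr (by exact_mod_cast h3)
  rw [← h4, Int.cast_natCast, ZMod.natCast_zmod_val]

/-- Characterisation of the value of the cyclotomic character by its action on roots of unity. -/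
theorem cycloChar_eq_intCast (σ : Γ) (m : ℤ)
    (h : ∀ (n : ℕ) (ζ : Qbar), ζ ^ p ^ n = 1 → σ ζ = ζ ^ m) :
    (cycloChar p σ : ℤ_[p]) = (m : ℤ_[p]) := by
  rw [← PadicInt.ext_of_toZModPow]
  intro n
  obtain ⟨ζ, hζ⟩ := HasEnoughRootsOfUnity.exists_primitiveRoot Qbar (p ^ n)
  rw [toZModPow_cycloChar_eq p σ m n hζ (h n ζ hζ.pow_eq_one), map_intCast]

end Char

section Valuation

/-- Roots of unity lie in every valuation subring. -/
theorem mem_of_pow_eq_one (A : ValuationSubring Qbar) {ζ : Qbar} {k : ℕ} (hk : k ≠ 0)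
    (hζ : ζ ^ k = 1) : ζ ∈ A := by
  rcases A.mem_or_inv_mem ζ with h | h
  · exact h
  · have h1 : ζ = ζ⁻¹ ^ (k - 1) := by
      have h2 : ζ * ζ ^ (k - 1) = 1 := by
        rw [← pow_succ', Nat.sub_add_cancel (Nat.one_le_iff_ne_zero.mpr hk), hζ]
      rw [inv_pow]
      exact eq_inv_of_mul_eq_one_left h2
    rw [h1]
    exact pow_mem h _

/-- Distinct `k`-th roots of unity stay distinct in the residue field of a valuation subring
of residue characteristic `q` prime to `k`. -/
theorem eq_of_sub_mem_nonunits (A : ValuationSubring Qbar) {q k : ℕ} (hqk : Nat.Coprime k q)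
    (hk : k ≠ 0) (hA : A.LiesOverPrime q) {ζ ζ' : Qbar} (hζ : ζ ^ k = 1) (hζ' : ζ' ^ k = 1)
    (h : ζ - ζ' ∈ A.nonunits) : ζ = ζ' := by
  by_contra hne
  have hζ0 : ζ ≠ 0 := by
    rintro rfl
    rw [zero_pow hk] at hζ
    exact zero_ne_one hζ
  -- `ω = ζ' / ζ ≠ 1`
  have hω1 : ζ' / ζ ≠ 1 := fun h1 => hne ((div_eq_one_iff_eq hζ0).mp h1).symm
  have hωpow : (ζ' / ζ) ^ k = 1 := by rw [div_pow, hζ, hζ', div_one]
  have hζinvA : ζ⁻¹ ∈ A := mem_of_pow_eq_one A hk (by rw [inv_pow, hζ, inv_one])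
  have hωA : ζ' / ζ ∈ A := mem_of_pow_eq_one A hk hωpow
  -- `1 - ω` is a nonunit
  have h1ω : 1 - ζ' / ζ ∈ A.nonunits := by
    have h2 : 1 - ζ' / ζ = (ζ - ζ') * ζ⁻¹ := by field_simp
    rw [h2, ValuationSubring.mem_nonunits_iff, map_mul]
    have h3 : A.valuation (ζ - ζ') < 1 := h
    have h4 : A.valuation ζ⁻¹ ≤ 1 := (A.valuation_le_one_iff _).mpr hζinvA
    exact mul_lt_one_of_lt_of_le h3 h4
  set ωA : A := ⟨ζ' / ζ, hωA⟩ with hωAdef
  have hm1 : (1 - ωA) ∈ IsLocalRing.maximalIdeal A := by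
    rw [← ValuationSubring.coe_mem_nonunits_iff]
    exact h1ω
  have hm2 : ∀ i : ℕ, (1 - ωA ^ i) ∈ IsLocalRing.maximalIdeal A := by
    intro i
    have h5 : (1 - ωA ^ i) = (∑ j ∈ Finset.range i, ωA ^ j) * (1 - ωA) :=
      (geom_sum_mul_neg ωA i).symm
    rw [h5]
    exact Ideal.mul_mem_left _ _ hm1
  have hωA1 : ωA ≠ 1 := fun h1 => hω1 (congrArg Subtype.val h1)
  have hωApow : ωA ^ k = 1 := Subtype.ext (by simpa [hωAdef] using hωpow)
  have hm3 : ∑ i ∈ Finset.range k, ωA ^ i = 0 := by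
    have h6 := geom_sum_mul_neg ωA k
    rw [hωApow, sub_self] at h6
    rcases mul_eq_zero.mp h6 with h7 | h7
    · exact h7
    · exact absurd (sub_eq_zero.mp h7).symm hωA1
  have hm4 : ((k : ℕ) : A) ∈ IsLocalRing.maximalIdeal A := by
    have h8 : ((k : ℕ) : A) = ∑ i ∈ Finset.range k, (1 - ωA ^ i) := by
      rw [Finset.sum_sub_distrib, hm3, sub_zero]
      simp
    rw [h8]
    exact Ideal.sum_mem _ (fun i _ => hm2 i)
  have hm5 : ((q : ℕ) : A) ∈ IsLocalRing.maximalIdeal A := by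
    rw [← ValuationSubring.coe_mem_nonunits_iff]
    have h11 : (((q : ℕ) : A) : Qbar) = (q : Qbar) := by simp
    rw [h11]
    exact hA
  have hm6 : (1 : A) ∈ IsLocalRing.maximalIdeal A := by
    have hcop : IsCoprime (k : ℤ) (q : ℤ) := Nat.isCoprime_iff_coprime.mpr hqk
    obtain ⟨u, v, huv⟩ := hcop
    have h9 : (1 : A) = (u : A) * ((k : ℕ) : A) + (v : A) * ((q : ℕ) : A) := by
      have h10 := congrArg (Int.cast : ℤ → A) huv
      push_cast at h10
      exact h10.symm
    rw [h9]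
    exact Ideal.add_mem _ (Ideal.mul_mem_left _ _ hm4) (Ideal.mul_mem_left _ _ hm5)
  exact (Ideal.ne_top_iff_one _).mp (IsLocalRing.maximalIdeal.isMaximal A).ne_top hm6

/-- A Frobenius element at `A` raises elements of `A` to the `l`-th power modulo the maximal
ideal. -/
theorem isFrobeniusAt_sub_pow_mem_nonunits {A : ValuationSubring Qbar} {σ : Γ} {l : ℕ}
    (hσ : A.IsFrobeniusAt σ l) {a : Qbar} (ha : a ∈ A) : σ a - a ^ l ∈ A.nonunits := by
  obtain ⟨hdec, h⟩ := hσ
  have h1 := h (IsLocalRing.residue A ⟨a, ha⟩)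
  rw [← IsLocalRing.ResidueField.residue_smul, ← map_pow, ← sub_eq_zero, ← map_sub,
    IsLocalRing.residue_eq_zero_iff, ← ValuationSubring.coe_mem_nonunits_iff] at h1
  exact h1

/-- An element of the inertia group at `A` fixes the elements of `A` modulo the maximal ideal. -/
theorem inertia_sub_mem_nonunits {A : ValuationSubring Qbar} {σ : Γ}
    (hσ : σ ∈ A.inertiaSubgroupIn ℚ) {a : Qbar} (ha : a ∈ A) : σ a - a ∈ A.nonunits := by
  obtain ⟨τ, hτ, rfl⟩ := hσ
  have h0 : ∀ x : IsLocalRing.ResidueField A, τ • x = x := by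
    intro x
    have h2 : MulSemiringAction.toRingAut (A.decompositionSubgroup ℚ)
        (IsLocalRing.ResidueField A) τ = 1 := hτ
    have h3 := congrArg (fun f : RingAut (IsLocalRing.ResidueField A) => f x) h2
    exact h3
  have h1 := h0 (IsLocalRing.residue A ⟨a, ha⟩)
  rw [← IsLocalRing.ResidueField.residue_smul, ← sub_eq_zero, ← map_sub,
    IsLocalRing.residue_eq_zero_iff, ← ValuationSubring.coe_mem_nonunits_iff] at h1
  exact h1

/-- **Finite level, Frobenius.** A Frobenius element at a prime `l` acts on the roots of unity of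
order prime to `l` by `ζ ↦ ζ ^ l`. -/
theorem isFrobeniusAt_rootOfUnity {A : ValuationSubring Qbar} {σ : Γ} {l k : ℕ}
    (hkl : Nat.Coprime k l) (hk : k ≠ 0) (hA : A.LiesOverPrime l) (hσ : A.IsFrobeniusAt σ l)
    {ζ : Qbar} (hζ : ζ ^ k = 1) : σ ζ = ζ ^ l := by
  refine eq_of_sub_mem_nonunits A hkl hk hA ?_ ?_
    (isFrobeniusAt_sub_pow_mem_nonunits hσ (mem_of_pow_eq_one A hk hζ))
  · rw [← map_pow, hζ, map_one]
  · rw [← pow_mul, mul_comm, pow_mul, hζ, one_pow]

/-- **Finite level, inertia.** An element of the inertia group at a prime `q` fixes the roots of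
unity of order prime to `q`. -/
theorem inertia_rootOfUnity {A : ValuationSubring Qbar} {σ : Γ} {q k : ℕ}
    (hkq : Nat.Coprime k q) (hk : k ≠ 0) (hA : A.LiesOverPrime q)
    (hσ : σ ∈ A.inertiaSubgroupIn ℚ) {ζ : Qbar} (hζ : ζ ^ k = 1) : σ ζ = ζ := by
  refine eq_of_sub_mem_nonunits A hkq hk hA ?_ hζ
    (inertia_sub_mem_nonunits hσ (mem_of_pow_eq_one A hk hζ))
  rw [← map_pow, hζ, map_one]

/-- **Finite level, complex conjugation.** Complex conjugation inverts the roots of unity. -/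
theorem complexConjugation_rootOfUnity {k : ℕ} (hk : k ≠ 0) {ζ : Qbar} (hζ : ζ ^ k = 1) :
    complexConjugation ζ = ζ⁻¹ := by
  apply complexEmbedding.toRingHom.injective
  change complexEmbedding (complexConjugation ζ) = complexEmbedding ζ⁻¹
  rw [complexEmbedding_complexConjugation, map_inv₀]
  have h1 : (complexEmbedding ζ) ^ k = 1 := by rw [← map_pow, hζ, map_one]
  have h2 : ‖complexEmbedding ζ‖ = 1 := Complex.norm_eq_one_of_pow_eq_one h1 hk
  exact (Complex.inv_eq_conj h2).symm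

end Valuation

section Values

variable (p : ℕ) [Fact p.Prime]

/-- **(c2)** The cyclotomic character takes the value `ℓ` on every Frobenius element at a prime
`ℓ ≠ p`. -/
theorem cycloChar_of_isFrobeniusAt {l : ℕ} (hl : l.Prime) (hlp : l ≠ p)
    {A : ValuationSubring Qbar} (hA : A.LiesOverPrime l) {σ : Γ} (hσ : A.IsFrobeniusAt σ l) :
    (cycloChar p σ : ℤ_[p]) = (l : ℤ_[p]) := by
  have hp : p.Prime := Fact.out
  have h := cycloChar_eq_intCast p σ (l : ℤ) (fun n ζ hζ => by
    rw [zpow_natCast]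
    exact isFrobeniusAt_rootOfUnity
      (Nat.Coprime.pow_left n ((Nat.coprime_primes hp hl).mpr (Ne.symm hlp)))
      (pow_ne_zero n hp.ne_zero) hA hσ hζ)
  rw [h, Int.cast_natCast]

/-- **(c4)** The cyclotomic character is trivial on the inertia groups at the primes `q ≠ p`. -/
theorem cycloChar_of_mem_inertia {q : ℕ} (hq : q.Prime) (hqp : q ≠ p)
    {A : ValuationSubring Qbar} (hA : A.LiesOverPrime q) {σ : Γ}
    (hσ : σ ∈ A.inertiaSubgroupIn ℚ) : cycloChar p σ = 1 := by
  have hp : p.Prime := Fact.out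
  have h := cycloChar_eq_intCast p σ 1 (fun n ζ hζ => by
    rw [zpow_one]
    exact inertia_rootOfUnity
      (Nat.Coprime.pow_left n ((Nat.coprime_primes hp hq).mpr (Ne.symm hqp)))
      (pow_ne_zero n hp.ne_zero) hA hσ hζ)
  apply Units.ext
  rw [h, Int.cast_one, Units.val_one]

/-- **(c3)** The cyclotomic character takes the value `-1` on complex conjugation. -/
theorem cycloChar_complexConjugation :
    (cycloChar p complexConjugation : ℤ_[p]) = -1 := by
  have hp : p.Prime := Fact.out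
  have h := cycloChar_eq_intCast p complexConjugation (-1) (fun n ζ hζ => by
    rw [zpow_neg_one]
    exact complexConjugation_rootOfUnity (pow_ne_zero n hp.ne_zero) hζ)
  rw [h, Int.cast_neg, Int.cast_one]

/-- **(c5)** Continuity: the cyclotomic character is `≡ 1 mod p ^ n` on the elements fixing
the finite extension `ℚ(ζ_{p^n})`. -/
theorem exists_finite_level_cycloChar (n : ℕ) :
    ∃ L : IntermediateField ℚ Qbar, FiniteDimensional ℚ L ∧
      ∀ σ : Γ, (∀ x ∈ L, σ x = x) → (cycloChar p σ : ℤ_[p]).toZModPow n = 1 := by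
  obtain ⟨ζ, hζ⟩ := HasEnoughRootsOfUnity.exists_primitiveRoot Qbar (p ^ n)
  have hint : IsIntegral ℚ ζ := (AlgebraicClosure.isAlgebraic ℚ).isIntegral.isIntegral ζ
  refine ⟨IntermediateField.adjoin ℚ {ζ}, IntermediateField.adjoin.finiteDimensional hint,
    fun σ hσ => ?_⟩
  have h1 : σ ζ = ζ ^ (1 : ℤ) := by
    rw [zpow_one]
    exact hσ ζ (IntermediateField.mem_adjoin_simple_self ℚ ζ)
  rw [toZModPow_cycloChar_eq p σ 1 n hζ h1, Int.cast_one]

/-- **(c5')** The same, as membership in the ideal `(p ^ n)` of `ℤ_[p]`. -/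
theorem exists_finite_level_cycloChar' (n : ℕ) :
    ∃ L : IntermediateField ℚ Qbar, FiniteDimensional ℚ L ∧
      ∀ σ : Γ, (∀ x ∈ L, σ x = x) →
        (cycloChar p σ : ℤ_[p]) - 1 ∈ Ideal.span {(p : ℤ_[p]) ^ n} := by
  obtain ⟨L, hL, h⟩ := exists_finite_level_cycloChar p n
  refine ⟨L, hL, fun σ hσ => ?_⟩
  rw [← PadicInt.ker_toZModPow, RingHom.mem_ker, map_sub, h σ hσ, map_one, sub_self]

end Values

section Complete

variable (p : ℕ) {S : Type*} [CommRing S] (I : Ideal S)

/-- `S ⧸ I ^ n` is killed by `p ^ n` if `p ∈ I`. -/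
theorem natCast_pow_quotient_eq_zero (hp : (p : S) ∈ I) (n : ℕ) :
    ((p ^ n : ℕ) : S ⧸ I ^ n) = 0 := by
  rw [← map_natCast (Ideal.Quotient.mk (I ^ n)), Ideal.Quotient.eq_zero_iff_mem, Nat.cast_pow]
  exact Ideal.pow_mem_pow hp n

/-- The ring homomorphism `ZMod (p ^ n) →+* S ⧸ I ^ n` for an ideal `I ∋ p`. -/
noncomputable def zmodToQuotient (hp : (p : S) ∈ I) (n : ℕ) : ZMod (p ^ n) →+* S ⧸ I ^ n :=
  ZMod.castHom (ringChar.dvd (natCast_pow_quotient_eq_zero p I hp n)) (S ⧸ I ^ n)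

variable [Fact p.Prime]

theorem zmodToQuotient_comp_toZModPow (hp : (p : S) ∈ I) {m n : ℕ} (hle : m ≤ n) :
    (Ideal.Quotient.factorPow I hle).comp
        ((zmodToQuotient p I hp n).comp (PadicInt.toZModPow n)) =
      (zmodToQuotient p I hp m).comp (PadicInt.toZModPow m) := by
  rw [← PadicInt.zmod_cast_comp_toZModPow m n hle, ← RingHom.comp_assoc,
    ← RingHom.comp_assoc]
  congr 1
  exact RingHom.ext_zmod _ _

variable [IsAdicComplete I S]

/-- The ring homomorphism `ℤ_[p] →+* S` into a ring `S` which is adically complete for an ideal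
`I ∋ p`. -/
noncomputable def padicToComplete (hp : (p : S) ∈ I) : ℤ_[p] →+* S :=
  IsAdicComplete.liftRingHom I
    (fun n => (zmodToQuotient p I hp n).comp (PadicInt.toZModPow n))
    (fun hle => zmodToQuotient_comp_toZModPow p I hp hle)

theorem mk_padicToComplete (hp : (p : S) ∈ I) (n : ℕ) (x : ℤ_[p]) :
    Ideal.Quotient.mk (I ^ n) (padicToComplete p I hp x) =
      zmodToQuotient p I hp n (PadicInt.toZModPow n x) :=
  IsAdicComplete.mk_liftRingHom I
    (fun n => (zmodToQuotient p I hp n).comp (PadicInt.toZModPow n))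
    (fun hle => zmodToQuotient_comp_toZModPow p I hp hle) n x

/-- `padicToComplete` is `I`-adically continuous: it maps `1 + p ^ n ℤ_[p]` into `1 + I ^ n`. -/
theorem padicToComplete_sub_one_mem (hp : (p : S) ∈ I) (n : ℕ) {x : ℤ_[p]}
    (hx : PadicInt.toZModPow n x = 1) : padicToComplete p I hp x - 1 ∈ I ^ n := by
  rw [← Ideal.Quotient.eq_zero_iff_mem, map_sub, mk_padicToComplete, hx, map_one, map_one,
    sub_self]

/-- The `S`-valued `p`-adic cyclotomic character, for a ring `S` which is adically complete for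
an ideal `I ∋ p` (e.g. a complete local ring of residue characteristic `p` and its maximal
ideal). -/
noncomputable def cycloCharIn (hp : (p : S) ∈ I) : Γ →* Sˣ :=
  (Units.map (padicToComplete p I hp).toMonoidHom).comp (cycloChar p)

theorem cycloCharIn_coe (hp : (p : S) ∈ I) (σ : Γ) :
    (cycloCharIn p I hp σ : S) = padicToComplete p I hp (cycloChar p σ : ℤ_[p]) := rfl

/-- The `S`-valued cyclotomic character takes the value `ℓ` on every Frobenius element at a
prime `ℓ ≠ p`. -/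
theorem cycloCharIn_of_isFrobeniusAt (hp : (p : S) ∈ I) {l : ℕ} (hl : l.Prime) (hlp : l ≠ p)
    {A : ValuationSubring Qbar} (hA : A.LiesOverPrime l) {σ : Γ} (hσ : A.IsFrobeniusAt σ l) :
    (cycloCharIn p I hp σ : S) = (l : S) := by
  rw [cycloCharIn_coe, cycloChar_of_isFrobeniusAt p hl hlp hA hσ, map_natCast]

/-- The `S`-valued cyclotomic character is trivial on the inertia groups at the primes
`q ≠ p`. -/
theorem cycloCharIn_of_mem_inertia (hp : (p : S) ∈ I) {q : ℕ} (hq : q.Prime) (hqp : q ≠ p)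
    {A : ValuationSubring Qbar} (hA : A.LiesOverPrime q) {σ : Γ}
    (hσ : σ ∈ A.inertiaSubgroupIn ℚ) : cycloCharIn p I hp σ = 1 := by
  rw [cycloCharIn, MonoidHom.comp_apply, cycloChar_of_mem_inertia p hq hqp hA hσ, map_one]

/-- The `S`-valued cyclotomic character takes the value `-1` on complex conjugation. -/
theorem cycloCharIn_complexConjugation (hp : (p : S) ∈ I) :
    (cycloCharIn p I hp complexConjugation : S) = -1 := by
  rw [cycloCharIn_coe, cycloChar_complexConjugation p, map_neg, map_one]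

/-- Continuity of the `S`-valued cyclotomic character: it is `≡ 1 mod I ^ n` on the elements
fixing the finite extension `ℚ(ζ_{p^n})`. -/
theorem exists_finite_level_cycloCharIn (hp : (p : S) ∈ I) (n : ℕ) :
    ∃ L : IntermediateField ℚ Qbar, FiniteDimensional ℚ L ∧
      ∀ σ : Γ, (∀ x ∈ L, σ x = x) → (cycloCharIn p I hp σ : S) - 1 ∈ I ^ n := by
  obtain ⟨L, hL, h⟩ := exists_finite_level_cycloChar p n
  exact ⟨L, hL, fun σ hσ => padicToComplete_sub_one_mem p I hp n (h σ hσ)⟩

/-- Continuity, coset form: there is a finite extension `L` of `ℚ` such that the value of the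
`S`-valued cyclotomic character modulo `I ^ n` only depends on the coset modulo the subgroup
fixing `L`. -/
theorem exists_finite_level_cycloCharIn_mul (hp : (p : S) ∈ I) (n : ℕ) :
    ∃ L : IntermediateField ℚ Qbar, FiniteDimensional ℚ L ∧
      ∀ σ τ : Γ, (∀ x ∈ L, τ x = x) →
        (cycloCharIn p I hp (σ * τ) : S) - (cycloCharIn p I hp σ : S) ∈ I ^ n := by
  obtain ⟨L, hL, h⟩ := exists_finite_level_cycloCharIn p I hp n
  refine ⟨L, hL, fun σ τ hτ => ?_⟩
  have h1 : (cycloCharIn p I hp (σ * τ) : S) - (cycloCharIn p I hp σ : S) =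
      (cycloCharIn p I hp σ : S) * ((cycloCharIn p I hp τ : S) - 1) := by
    rw [map_mul, Units.val_mul]
    ring
  rw [h1]
  exact Ideal.mul_mem_left _ _ (h τ hτ)

end Complete

end Fermat.Agent.S30.H76
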